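/-
JAC / S26 track, chapter DIV1 (helper64): linear shears of `K⟦x_0,…,x_n⟧`.

For `c : Fin n → K` the substitution `x_0 ↦ x_0`, `x_{j+1} ↦ x_{j+1} + c_j x_0` is a `K`-algebra
automorphism `shearEquiv c` of `MvPowerSeries (Fin (n+1)) K`.  If `K` is infinite and `f ≠ 0`
there is `c` such that `shearEquiv c f` is regular in `x_0`: some pure power `x_0 ^ k` has a
nonzero coefficient (`exists_shear_regular`).
-/
import Mathlib

set_option autoImplicit false

namespace Fermat.Agent.JAC.DIV1.Shear64

open MvPowerSeries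

variable {K : Type*} [Field K] {n : ℕ}

/-- The shear family `x_0, x_1 + c_0 x_0, …, x_n + c_{n-1} x_0`. -/
noncomputable def shearFam (c : Fin n → K) : Fin (n + 1) → MvPowerSeries (Fin (n + 1)) K :=
  Fin.cons (X 0) (fun j => X j.succ + C (c j) * X 0)

@[simp] lemma shearFam_zero (c : Fin n → K) : shearFam c 0 = X 0 := rfl

@[simp] lemma shearFam_succ (c : Fin n → K) (j : Fin n) :
    shearFam c j.succ = X j.succ + C (c j) * X 0 := by
  simp [shearFam]

lemma hasSubst_shearFam (c : Fin n → K) : HasSubst (shearFam c) := by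
  apply hasSubst_of_constantCoeff_zero
  intro s
  refine Fin.cases ?_ (fun j => ?_) s
  · simp
  · simp

/-- The shear as an algebra endomorphism. -/
noncomputable def shear (c : Fin n → K) :
    MvPowerSeries (Fin (n + 1)) K →ₐ[K] MvPowerSeries (Fin (n + 1)) K :=
  substAlgHom (hasSubst_shearFam c)

lemma shear_apply (c : Fin n → K) (f : MvPowerSeries (Fin (n + 1)) K) :
    shear c f = subst (shearFam c) f := by
  simp [shear]

lemma shear_neg_shear (c : Fin n → K) (f : MvPowerSeries (Fin (n + 1)) K) :
    shear (-c) (shear c f) = f := by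
  rw [shear_apply, shear_apply,
    subst_comp_subst_apply (hasSubst_shearFam c) (hasSubst_shearFam (-c))]
  have : (fun s => subst (shearFam (-c)) (shearFam c s)) =
      (X : Fin (n + 1) → MvPowerSeries (Fin (n + 1)) K) := by
    funext s
    refine Fin.cases ?_ (fun j => ?_) s
    · rw [shearFam_zero, subst_X (hasSubst_shearFam (-c)), shearFam_zero]
    · rw [shearFam_succ, subst_add (hasSubst_shearFam (-c)), subst_mul (hasSubst_shearFam (-c)),
        subst_X (hasSubst_shearFam (-c)), subst_X (hasSubst_shearFam (-c)), subst_C,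
        shearFam_succ, shearFam_zero]
      simp
  rw [this, subst_self]
  rfl

/-- The shear as an algebra automorphism. -/
noncomputable def shearEquiv (c : Fin n → K) :
    MvPowerSeries (Fin (n + 1)) K ≃ₐ[K] MvPowerSeries (Fin (n + 1)) K :=
  AlgEquiv.ofAlgHom (shear c) (shear (-c))
    (by ext f : 1; simpa using shear_neg_shear (-c) f)
    (by ext f : 1; simpa using shear_neg_shear c f)

@[simp] lemma shearEquiv_apply (c : Fin n → K) (f : MvPowerSeries (Fin (n + 1)) K) :
    shearEquiv c f = subst (shearFam c) f := by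
  simp [shearEquiv, shear_apply]

/-! ### Setting `x_1 = … = x_n = 0` -/

/-- The ring homomorphism `K⟦x_0,…,x_n⟧ → K⟦X⟧`, `x_0 ↦ X`, `x_{j+1} ↦ 0`. -/
noncomputable def toAxis : MvPowerSeries (Fin (n + 1)) K →+* PowerSeries K :=
  (PowerSeries.map (constantCoeff (σ := Fin n) (R := K))).comp
    (finSuccEquiv K n : MvPowerSeries (Fin (n + 1)) K →+* _)

lemma coeff_toAxis (k : ℕ) (g : MvPowerSeries (Fin (n + 1)) K) :
    PowerSeries.coeff k (toAxis g) = coeff (Finsupp.cons k (0 : Fin n →₀ ℕ)) g := by
  simp only [toAxis, RingHom.comp_apply, PowerSeries.coeff_map]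
  rw [← coeff_zero_eq_constantCoeff_apply]
  exact coeff_coeff_finSuccEquiv g

@[simp] lemma toAxis_X_zero : toAxis (X 0 : MvPowerSeries (Fin (n + 1)) K) = PowerSeries.X := by
  simp [toAxis]

@[simp] lemma toAxis_X_succ (j : Fin n) :
    toAxis (X j.succ : MvPowerSeries (Fin (n + 1)) K) = 0 := by
  simp [toAxis]

@[simp] lemma toAxis_C (r : K) :
    toAxis (C r : MvPowerSeries (Fin (n + 1)) K) = PowerSeries.C r := by
  simp [toAxis]

lemma toAxis_shearFam (c : Fin n → K) (s : Fin (n + 1)) :
    toAxis (shearFam c s) = PowerSeries.C ((Fin.cons 1 c : Fin (n + 1) → K) s) * PowerSeries.X := by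
  refine Fin.cases ?_ (fun j => ?_) s
  · simp
  · simp

/-- The coefficient of `x_0 ^ k` in a monomial in the shear family. -/
lemma coeff_cons_prod_shearFam (c : Fin n → K) (d : Fin (n + 1) →₀ ℕ) (k : ℕ) :
    coeff (Finsupp.cons k (0 : Fin n →₀ ℕ)) (d.prod fun s e => shearFam c s ^ e) =
      if k = ∑ s, d s then ∏ j : Fin n, c j ^ d j.succ else 0 := by
  rw [← coeff_toAxis, map_finsuppProd]
  simp only [map_pow, toAxis_shearFam]
  rw [Finsupp.prod_fintype _ _ (fun i => by simp)]
  simp only [mul_pow, Finset.prod_mul_distrib, Finset.prod_pow_eq_pow_sum, ← map_pow, ← map_prod]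
  rw [PowerSeries.coeff_C_mul_X_pow, Fin.prod_univ_succ]
  simp

/-- The coefficient of `x_0 ^ k` in a sheared power series is a polynomial in `c`. -/
lemma coeff_cons_shear (c : Fin n → K) (f : MvPowerSeries (Fin (n + 1)) K) (k : ℕ) :
    coeff (Finsupp.cons k (0 : Fin n →₀ ℕ)) (subst (shearFam c) f) =
      ∑ d ∈ (Finset.univ : Finset (Fin (n + 1))).finsuppAntidiag k,
        coeff d f * ∏ j : Fin n, c j ^ d j.succ := by
  rw [coeff_subst (hasSubst_shearFam c)]
  simp_rw [coeff_cons_prod_shearFam, smul_eq_mul]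
  rw [finsum_eq_sum_of_support_subset (s := (Finset.univ : Finset (Fin (n + 1))).finsuppAntidiag k)]
  · refine Finset.sum_congr rfl (fun d hd => ?_)
    rw [Finset.mem_finsuppAntidiag] at hd
    rw [if_pos hd.1.symm]
  · intro d hd
    rw [Function.mem_support] at hd
    rw [Finset.mem_coe, Finset.mem_finsuppAntidiag]
    refine ⟨?_, Finset.subset_univ _⟩
    by_contra hne
    apply hd
    rw [if_neg (fun h => hne h.symm), mul_zero]

/-- **Regularity after a shear.** Over an infinite field every nonzero power series becomes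
regular in `x_0` after a suitable linear shear. -/
theorem exists_shear_regular [Infinite K] {f : MvPowerSeries (Fin (n + 1)) K} (hf : f ≠ 0) :
    ∃ (c : Fin n → K) (k : ℕ),
      coeff (Finsupp.cons k (0 : Fin n →₀ ℕ)) (shearEquiv c f) ≠ 0 := by
  classical
  obtain ⟨d0, hd0⟩ : ∃ d, coeff d f ≠ 0 := by
    by_contra h
    push Not at h
    exact hf (MvPowerSeries.ext (fun d => by simpa using h d))
  set k := ∑ s, d0 s with hk
  set S := (Finset.univ : Finset (Fin (n + 1))).finsuppAntidiag k with hS
  set P : MvPolynomial (Fin n) K := ∑ d ∈ S, MvPolynomial.monomial d.tail (coeff d f) with hP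
  have hd0S : d0 ∈ S := by
    rw [hS, Finset.mem_finsuppAntidiag]
    exact ⟨rfl, Finset.subset_univ _⟩
  have hPne : P ≠ 0 := by
    intro h0
    have hc : MvPolynomial.coeff d0.tail P = coeff d0 f := by
      rw [hP, MvPolynomial.coeff_sum]
      simp_rw [MvPolynomial.coeff_monomial]
      rw [Finset.sum_eq_single d0]
      · rw [if_pos rfl]
      · intro d hdS hne
        rw [if_neg]
        intro htail
        apply hne
        rw [hS, Finset.mem_finsuppAntidiag] at hdS
        have h1 : ∑ s, d s = ∑ s, d0 s := hdS.1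
        rw [Fin.sum_univ_succ, Fin.sum_univ_succ] at h1
        have h2 : ∀ j : Fin n, d j.succ = d0 j.succ := fun j => by
          have := DFunLike.congr_fun htail j
          simpa [Finsupp.tail_apply] using this
        simp_rw [h2] at h1
        have h3 : d 0 = d0 0 := Nat.add_right_cancel h1
        rw [← Finsupp.cons_tail d, ← Finsupp.cons_tail d0, htail, h3]
      · intro h; exact absurd hd0S h
    rw [h0, MvPolynomial.coeff_zero] at hc
    exact hd0 hc.symm
  obtain ⟨c, hc⟩ : ∃ c : Fin n → K, MvPolynomial.eval c P ≠ 0 := by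
    by_contra h
    push Not at h
    exact hPne (MvPolynomial.funext (fun x => by rw [h x, map_zero]))
  refine ⟨c, k, ?_⟩
  rw [shearEquiv_apply, coeff_cons_shear]
  have : MvPolynomial.eval c P = ∑ d ∈ S, coeff d f * ∏ j : Fin n, c j ^ d j.succ := by
    rw [hP, map_sum]
    refine Finset.sum_congr rfl (fun d _ => ?_)
    rw [MvPolynomial.eval_monomial, Finsupp.prod_fintype _ _ (fun i => by simp)]
    simp [Finsupp.tail_apply]
  rwa [← this]

end Fermat.Agent.JAC.DIV1.Shear64
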