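/-
JAC / S26 track, chapter DIV1 (helper64): the one-variable Weierstrass step.

`A` a complete local domain which is a UFD.  If a prime ideal `P` of `A⟦X⟧` contains a power
series `g` whose reduction modulo the maximal ideal of `A` is nonzero, then `P` contains a prime
element of `A⟦X⟧`.
-/
import Mathlib

set_option autoImplicit false

namespace Fermat.Agent.JAC.DIV1.WeierstrassStep64

open Polynomial IsLocalRing
open scoped PowerSeries

/-- A monic divisor of `X ^ d` over a field is a power of `X`. -/
lemma eq_X_pow_of_monic_of_dvd_X_pow {k : Type*} [Field k] {p : k[X]} (hp : p.Monic) {d : ℕ}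
    (h : p ∣ X ^ d) : p = X ^ p.natDegree := by
  obtain ⟨i, -, hassoc⟩ := (dvd_prime_pow Polynomial.prime_X d).mp h
  have : p = X ^ i := eq_of_monic_of_associated hp (monic_X_pow i) hassoc
  rw [this, natDegree_X_pow]

variable {A : Type*} [CommRing A] [IsDomain A] [IsLocalRing A]

/-- A divisor of a distinguished polynomial is associated to a distinguished polynomial. -/
lemma exists_isDistinguishedAt_associated {W h : A[X]}
    (hW : W.IsDistinguishedAt (maximalIdeal A)) (hh : h ∣ W) :
    ∃ h' : A[X], h'.IsDistinguishedAt (maximalIdeal A) ∧ Associated h h' := by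
  obtain ⟨q, hq⟩ := hh
  have hlc : h.leadingCoeff * q.leadingCoeff = 1 := by
    rw [← leadingCoeff_mul, ← hq]; exact hW.monic
  set a := q.leadingCoeff with ha
  set b := h.leadingCoeff with hb
  have hmon : (C a * h).Monic := monic_C_mul_of_mul_leadingCoeff_eq_one (by rw [mul_comm]; exact hlc)
  have hmon' : (C b * q).Monic := monic_C_mul_of_mul_leadingCoeff_eq_one hlc
  have hprod : (C a * h) * (C b * q) = W := by
    rw [hq]
    have : C a * C b = (1 : A[X]) := by rw [← C_mul, mul_comm, hlc, C_1]
    calc (C a * h) * (C b * q) = (C a * C b) * (h * q) := by ring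
      _ = h * q := by rw [this, one_mul]
  have hunit : IsUnit (C a : A[X]) :=
    Polynomial.isUnit_C.mpr (IsUnit.of_mul_eq_one _ (by rw [mul_comm]; exact hlc))
  refine ⟨C a * h, ⟨⟨?_⟩, hmon⟩, ?_⟩
  · -- weakly Eisenstein: reduce modulo the maximal ideal
    intro n hn
    have hmap : (C a * h).map (residue A) ∣ X ^ W.natDegree := by
      have h1 : W.map (residue A) = X ^ W.natDegree := hW.map_eq_X_pow
      have h2 : W.map (residue A) = (C a * h).map (residue A) * (C b * q).map (residue A) := by
        rw [← Polynomial.map_mul, hprod]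
      exact ⟨_, by rw [← h1, h2]⟩
    have hmapmon : ((C a * h).map (residue A)).Monic := hmon.map _
    have hX := eq_X_pow_of_monic_of_dvd_X_pow hmapmon hmap
    rw [hmon.natDegree_map] at hX
    have hcoeff : ((C a * h).map (residue A)).coeff n = 0 := by
      rw [hX, coeff_X_pow, if_neg (ne_of_lt hn)]
    rw [coeff_map] at hcoeff
    exact (residue_eq_zero_iff _).mp hcoeff
  · have : Associated (C a * h) h := associated_unit_mul_left h (C a) hunit
    exact this.symm

variable [IsAdicComplete (maximalIdeal A) A]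

omit [IsDomain A] in
/-- A distinguished polynomial which is prime in `A[X]` stays prime in `A⟦X⟧`. -/
theorem prime_coe_of_isDistinguishedAt {h : A[X]} (hd : h.IsDistinguishedAt (maximalIdeal A))
    (hp : Prime h) : Prime (h : A⟦X⟧) := by
  have hne : (h : A⟦X⟧) ≠ 0 := by
    intro h0
    apply hp.ne_zero
    exact_mod_cast h0
  rw [← Ideal.span_singleton_prime hne]
  have hprime : (Ideal.span {h}).IsPrime := (Ideal.span_singleton_prime hp.ne_zero).mpr hp
  have hdom : IsDomain (A[X] ⧸ Ideal.span {h}) := (Ideal.Quotient.isDomain_iff_prime _).mpr hprime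
  have : IsDomain (A⟦X⟧ ⧸ Ideal.span {(h : A⟦X⟧)}) :=
    MulEquiv.isDomain (A[X] ⧸ Ideal.span {h}) hd.algEquivQuotient.symm.toMulEquiv
  exact (Ideal.Quotient.isDomain_iff_prime _).mp this

variable [UniqueFactorizationMonoid A]

/-- In a UFD, a prime ideal containing a nonzero element contains a prime divisor of it. -/
lemma exists_prime_dvd_mem {R : Type*} [CommRing R] [IsDomain R] [UniqueFactorizationMonoid R]
    (Q : Ideal R) [hQ : Q.IsPrime] {w : R} (hw0 : w ≠ 0) (hw : w ∈ Q) :
    ∃ p ∈ Q, Prime p ∧ p ∣ w := by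
  obtain ⟨s, hs, u, hu⟩ := UniqueFactorizationMonoid.exists_prime_factors w hw0
  have hprod : s.prod ∈ Q := by
    have : s.prod = w * ((u⁻¹ : Rˣ) : R) := by rw [← hu]; simp [mul_assoc]
    rw [this]
    exact Q.mul_mem_right _ hw
  obtain ⟨p, hps, hpQ⟩ := (hQ.multiset_prod_mem_iff_exists_mem s).mp hprod
  refine ⟨p, hpQ, hs p hps, ?_⟩
  rw [← hu]
  exact dvd_mul_of_dvd_left (Multiset.dvd_prod hps) _

/-- **Weierstrass step.** A prime ideal of `A⟦X⟧` containing a power series with nonzero
reduction contains a prime element. -/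
theorem exists_prime_mem_of_map_residue_ne_zero (P : Ideal A⟦X⟧) [hP : P.IsPrime] {g : A⟦X⟧}
    (hgP : g ∈ P) (hg : g.map (residue A) ≠ 0) : ∃ p ∈ P, Prime p := by
  set W := g.weierstrassDistinguished hg with hWdef
  have hWd : W.IsDistinguishedAt (maximalIdeal A) := g.isDistinguishedAt_weierstrassDistinguished hg
  have hu : IsUnit (g.weierstrassUnit hg) := g.isUnit_weierstrassUnit hg
  have heq : g = W * g.weierstrassUnit hg := g.eq_weierstrassDistinguished_mul_weierstrassUnit hg
  -- `W ∈ P`
  have hWP : (W : A⟦X⟧) ∈ P := by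
    rcases hP.mem_or_mem (heq ▸ hgP) with h | h
    · exact h
    · exact absurd (P.eq_top_of_isUnit_mem h hu) hP.ne_top
  set Q : Ideal A[X] := P.comap (Polynomial.coeToPowerSeries.ringHom) with hQ
  have hQprime : Q.IsPrime := Ideal.comap_isPrime _ _
  have hWQ : W ∈ Q := by
    rw [hQ, Ideal.mem_comap]; exact hWP
  obtain ⟨h, hhQ, hhprime, hhW⟩ := exists_prime_dvd_mem Q hWd.monic.ne_zero hWQ
  obtain ⟨h', hd', hassoc⟩ := exists_isDistinguishedAt_associated hWd hhW
  have hh'prime : Prime h' := hassoc.prime hhprime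
  have hh'Q : h' ∈ Q := by
    obtain ⟨v, hv⟩ := hassoc
    rw [← hv]; exact Q.mul_mem_right _ hhQ
  exact ⟨(h' : A⟦X⟧), hh'Q, prime_coe_of_isDistinguishedAt hd' hh'prime⟩

end Fermat.Agent.JAC.DIV1.WeierstrassStep64
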