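/-
JAC / S26 track, chapter DIV1 (helper64), part (a):
`MvPowerSeries (Fin n) K` is a unique factorisation domain for every infinite field `K`
(Weierstrass preparation + induction on `n`), hence also `MvPowerSeries σ K` for finite `σ`.
-/
import Mathlib
import Fermat.Agent.JAC.DIV1.WeierstrassStep64
import Fermat.Agent.JAC.DIV1.Shear64

set_option autoImplicit false

namespace Fermat.Agent.JAC.DIV1.UFDPowerSeries64

open MvPowerSeries IsLocalRing
open Fermat.Agent.JAC.DIV1.WeierstrassStep64 Fermat.Agent.JAC.DIV1.Shear64

variable (K : Type*) [Field K]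

instance instIsDomainMvPS (n : ℕ) : IsDomain (MvPowerSeries (Fin n) K) :=
  NoZeroDivisors.to_isDomain _

/-- A power series in finitely many variables with zero constant coefficient lies in the ideal
generated by the variables. -/
theorem mem_span_range_X_of_constantCoeff_eq_zero :
    ∀ (n : ℕ) (a : MvPowerSeries (Fin n) K), constantCoeff a = 0 →
      a ∈ Ideal.span (Set.range (X : Fin n → MvPowerSeries (Fin n) K)) := by
  intro n
  induction n with
  | zero =>
    intro a ha
    have : a = 0 := by
      apply (isEmptyEquiv (Fin 0) K).injective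
      rw [map_zero]
      have h1 : isEmptyEquiv (Fin 0) K a = constantCoeff a := by
        rw [← coeff_zero_eq_constantCoeff_apply]
        rfl
      rw [h1, ha]
    rw [this]
    exact Ideal.zero_mem _
  | succ n ih =>
    intro a ha
    set e := finSuccEquiv K n with he
    set g := e a with hg
    set b : MvPowerSeries (Fin n) K := PowerSeries.constantCoeff g with hb
    have hb0 : constantCoeff b = 0 := by
      rw [hb, ← PowerSeries.coeff_zero_eq_constantCoeff_apply,
        ← coeff_zero_eq_constantCoeff_apply, hg, he, coeff_coeff_finSuccEquiv]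
      have : (Finsupp.cons 0 (0 : Fin n →₀ ℕ)) = 0 := Finsupp.cons_zero_zero
      rw [this, coeff_zero_eq_constantCoeff_apply, ha]
    obtain ⟨c', hc'⟩ := Ideal.mem_span_range_iff_exists_fun.mp (ih b hb0)
    rw [Ideal.mem_span_range_iff_exists_fun]
    refine ⟨Fin.cons (e.symm (PowerSeries.mk fun p => PowerSeries.coeff (p + 1) g))
      (fun j => e.symm (PowerSeries.C (c' j))), ?_⟩
    apply e.injective
    rw [Fin.sum_univ_succ, map_add, map_sum]
    simp only [Fin.cons_zero, Fin.cons_succ, map_mul, AlgEquiv.apply_symm_apply]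
    rw [he, finSuccEquiv_X_zero]
    simp only [finSuccEquiv_X_succ]
    rw [← he, ← hg]
    conv_rhs => rw [PowerSeries.eq_X_mul_shift_add_const g]
    rw [mul_comm]
    congr 1
    rw [← hb, ← hc', map_sum]
    simp only [map_mul]

/-- For a field `K`, the maximal ideal of `K⟦x_1,…,x_n⟧` is generated by the variables. -/
theorem maximalIdeal_eq_span_range_X (n : ℕ) :
    maximalIdeal (MvPowerSeries (Fin n) K) =
      Ideal.span (Set.range (X : Fin n → MvPowerSeries (Fin n) K)) := by
  apply le_antisymm
  · intro a ha
    apply mem_span_range_X_of_constantCoeff_eq_zero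
    rw [mem_maximalIdeal, mem_nonunits_iff, isUnit_iff_constantCoeff] at ha
    by_contra h
    exact ha (isUnit_iff_ne_zero.mpr h)
  · rw [Ideal.span_le]
    rintro _ ⟨s, rfl⟩
    rw [SetLike.mem_coe, mem_maximalIdeal, mem_nonunits_iff, isUnit_iff_constantCoeff]
    simp

instance instIsAdicCompleteMvPS (n : ℕ) :
    IsAdicComplete (maximalIdeal (MvPowerSeries (Fin n) K)) (MvPowerSeries (Fin n) K) := by
  rw [maximalIdeal_eq_span_range_X]
  infer_instance

/-- An element of `K⟦x_1,…,x_n⟧` lies in the maximal ideal iff its constant coefficient is 0. -/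
lemma residue_eq_zero_iff_constantCoeff (n : ℕ) (a : MvPowerSeries (Fin n) K) :
    residue _ a = 0 ↔ constantCoeff a = 0 := by
  rw [residue_eq_zero_iff, mem_maximalIdeal, mem_nonunits_iff, isUnit_iff_constantCoeff,
    isUnit_iff_ne_zero, not_not]

variable [Infinite K]

/-- **DIV1 (a).** `K⟦x_1,…,x_n⟧` is a unique factorisation domain (`K` an infinite field). -/
theorem ufd_mvPowerSeries_fin :
    ∀ n : ℕ, UniqueFactorizationMonoid (MvPowerSeries (Fin n) K) := by
  intro n
  induction n with
  | zero =>
    exact MulEquiv.uniqueFactorizationMonoid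
      (isEmptyEquiv (Fin 0) K).symm.toMulEquiv inferInstance
  | succ n ih =>
    rw [UniqueFactorizationMonoid.iff_exists_prime_mem_of_isPrime]
    intro P hP0 hPprime
    obtain ⟨f, hfP, hf0⟩ := Submodule.exists_mem_ne_zero_of_ne_bot hP0
    obtain ⟨c, k, hck⟩ := exists_shear_regular hf0
    -- the isomorphism to one-variable power series over `A = K⟦x_1,…,x_n⟧`
    set e : MvPowerSeries (Fin (n + 1)) K ≃ₐ[K] PowerSeries (MvPowerSeries (Fin n) K) :=
      (shearEquiv c).trans (finSuccEquiv K n) with he
    set P' : Ideal (PowerSeries (MvPowerSeries (Fin n) K)) :=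
      P.comap (e.symm : PowerSeries (MvPowerSeries (Fin n) K) →+* _) with hP'
    have hP'prime : P'.IsPrime := Ideal.comap_isPrime _ _
    have hgP' : e f ∈ P' := by
      rw [hP', Ideal.mem_comap]
      simpa using hfP
    have hg : (e f).map (residue (MvPowerSeries (Fin n) K)) ≠ 0 := by
      intro h0
      have h1 := congrArg (PowerSeries.coeff k) h0
      rw [PowerSeries.coeff_map, map_zero, residue_eq_zero_iff_constantCoeff,
        ← coeff_zero_eq_constantCoeff_apply] at h1
      apply hck
      rw [← h1, he, AlgEquiv.trans_apply, coeff_coeff_finSuccEquiv]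
    obtain ⟨p, hpP', hp⟩ := exists_prime_mem_of_map_residue_ne_zero P' hgP' hg
    refine ⟨e.symm p, hpP', ?_⟩
    exact (MulEquiv.prime_iff e.symm).mpr hp

/-- `MvPowerSeries σ K` is a UFD for finite `σ` and infinite fields `K`. -/
theorem ufd_mvPowerSeries (σ : Type*) [Finite σ] :
    UniqueFactorizationMonoid (MvPowerSeries σ K) := by
  cases nonempty_fintype σ
  exact MulEquiv.uniqueFactorizationMonoid
    (renameEquiv K (Fintype.equivFin σ)).symm.toMulEquiv (ufd_mvPowerSeries_fin K _)

end Fermat.Agent.JAC.DIV1.UFDPowerSeries64
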