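/-
DIV1(b), file 2/4 (helper17).  Mathlib only.

Completion congruence: a ring map `φ : A → C` with `φ(I^k) ⊆ J^k` inducing bijections
`A/I^k → C/J^k` for all `k` induces a ring isomorphism
`AdicCompletion I A ≃+* AdicCompletion J C`.
-/
import Mathlib.RingTheory.AdicCompletion.Algebra

namespace Fermat.Agent.JAC.DIV1.CompletionCongr17

open Ideal AdicCompletion

variable {A C : Type*} [CommRing A] [CommRing C]

/-- Compatibility of the evaluation maps of an adic completion with the transition maps. -/
theorem factorPow_evalₐ (I : Ideal A) {m n : ℕ} (hle : m ≤ n) (x : AdicCompletion I A) :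
    Ideal.Quotient.factorPow I hle (evalₐ I n x) = evalₐ I m x := by
  obtain ⟨f, rfl⟩ := AdicCompletion.mk_surjective I A x
  rw [evalₐ_mk, evalₐ_mk, Ideal.Quotient.factor_mk]
  exact AdicCompletion.Ideal.mk_eq_mk I hle f

/-- The maps induced on truncations by a ring map commute with the transition maps. -/
theorem factorPow_quotientMap (φ : A →+* C) (I : Ideal A) (J : Ideal C)
    (hk : ∀ k, I ^ k ≤ (J ^ k).comap φ) {m n : ℕ} (hle : m ≤ n) (x : A ⧸ I ^ n) :
    Ideal.Quotient.factorPow J hle (Ideal.quotientMap (J ^ n) φ (hk n) x) =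
      Ideal.quotientMap (J ^ m) φ (hk m) (Ideal.Quotient.factorPow I hle x) := by
  obtain ⟨a, rfl⟩ := Ideal.Quotient.mk_surjective x
  simp [Ideal.quotientMap_mk]

theorem completionMap_compat (φ : A →+* C) (I : Ideal A) (J : Ideal C)
    (hk : ∀ k, I ^ k ≤ (J ^ k).comap φ) {m n : ℕ} (hle : m ≤ n) :
    (Ideal.Quotient.factorPow J hle).comp
      ((Ideal.quotientMap (J ^ n) φ (hk n)).comp (evalₐ I n : AdicCompletion I A →+* _)) =
    (Ideal.quotientMap (J ^ m) φ (hk m)).comp (evalₐ I m : AdicCompletion I A →+* _) := by
  ext x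
  simp only [RingHom.comp_apply]
  rw [factorPow_quotientMap φ I J hk hle]
  congr 1
  exact factorPow_evalₐ I hle x

/-- The map induced on adic completions by a ring map `φ : A → C` with `φ(I^k) ⊆ J^k`. -/
noncomputable def completionMap (φ : A →+* C) (I : Ideal A) (J : Ideal C)
    (hk : ∀ k, I ^ k ≤ (J ^ k).comap φ) : AdicCompletion I A →+* AdicCompletion J C :=
  AdicCompletion.liftRingHom J
    (fun k => (Ideal.quotientMap (J ^ k) φ (hk k)).comp (evalₐ I k : AdicCompletion I A →+* _))
    (fun hle => completionMap_compat φ I J hk hle)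

theorem evalₐ_completionMap (φ : A →+* C) (I : Ideal A) (J : Ideal C)
    (hk : ∀ k, I ^ k ≤ (J ^ k).comap φ) (k : ℕ) (x : AdicCompletion I A) :
    evalₐ J k (completionMap φ I J hk x) = Ideal.quotientMap (J ^ k) φ (hk k) (evalₐ I k x) := by
  unfold completionMap
  rw [evalₐ_liftRingHom J _ (fun hle => completionMap_compat φ I J hk hle)]
  rfl

/-- **Completion congruence.** If `φ : A → C` induces bijections `A/I^k → C/J^k` for all `k`
then it induces an isomorphism of adic completions. -/
theorem completionMap_bijective (φ : A →+* C) (I : Ideal A) (J : Ideal C)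
    (hk : ∀ k, I ^ k ≤ (J ^ k).comap φ)
    (hbij : ∀ k, Function.Bijective (Ideal.quotientMap (J ^ k) φ (hk k))) :
    Function.Bijective (completionMap φ I J hk) := by
  let e : ∀ k, (A ⧸ I ^ k) ≃+* (C ⧸ J ^ k) := fun k => RingEquiv.ofBijective _ (hbij k)
  have he : ∀ k x, e k x = Ideal.quotientMap (J ^ k) φ (hk k) x := fun _ _ => rfl
  constructor
  · rw [injective_iff_map_eq_zero]
    intro x hx
    refine AdicCompletion.ext_evalₐ fun k => ?_
    have := evalₐ_completionMap φ I J hk k x
    rw [hx, map_zero] at this
    rw [map_zero]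
    exact (hbij k).1 (by rw [← this, map_zero])
  · intro y
    let G : AdicCompletion J C →+* AdicCompletion I A :=
      AdicCompletion.liftRingHom I
        (fun k => ((e k).symm : (C ⧸ J ^ k) →+* (A ⧸ I ^ k)).comp
          (evalₐ J k : AdicCompletion J C →+* _))
        (by
          intro m n hle
          ext z
          simp only [RingHom.comp_apply, RingHom.coe_coe]
          apply (e m).injective
          rw [RingEquiv.apply_symm_apply, he, ← factorPow_quotientMap φ I J hk hle, ← he,
            RingEquiv.apply_symm_apply]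
          exact factorPow_evalₐ J hle z)
    refine ⟨G y, AdicCompletion.ext_evalₐ fun k => ?_⟩
    rw [evalₐ_completionMap]
    have : evalₐ I k (G y) = (e k).symm (evalₐ J k y) := by
      simp only [G]
      rw [evalₐ_liftRingHom]
      rfl
    rw [this, ← he, RingEquiv.apply_symm_apply]

/-- Ring isomorphism of adic completions induced by truncation-wise bijective `φ`. -/
noncomputable def completionEquiv (φ : A →+* C) (I : Ideal A) (J : Ideal C)
    (hk : ∀ k, I ^ k ≤ (J ^ k).comap φ)
    (hbij : ∀ k, Function.Bijective (Ideal.quotientMap (J ^ k) φ (hk k))) :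
    AdicCompletion I A ≃+* AdicCompletion J C :=
  RingEquiv.ofBijective (completionMap φ I J hk) (completionMap_bijective φ I J hk hbij)

end Fermat.Agent.JAC.DIV1.CompletionCongr17
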