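/-
DIV1(b), file 3/4 (helper17).  Mathlib only.

First-order jets of a local `K`-algebra `C` with residue field `K`: the retraction `C → K`,
the universal derivation `C → m/m²`, the Leibniz rule, and the resulting `K`-algebra maps
`C → B/J`, `c ↦ c(0) + L(dc)`, for `K`-linear `L : m/m² → B` with `L(u)L(v) ∈ J`.
-/
import Mathlib.RingTheory.Smooth.Basic
import Mathlib.RingTheory.Ideal.Cotangent
import Mathlib.RingTheory.LocalRing.ResidueField.Basic

namespace Fermat.Agent.JAC.DIV1.Jets17

open IsLocalRing

variable {K C : Type*} [Field K] [CommRing C] [Algebra K C] [IsLocalRing C]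

/-- The retraction `C → K` of a local `K`-algebra `C` with residue field `K`. -/
noncomputable def retr (hres : Function.Bijective (algebraMap K (ResidueField C))) : C →ₐ[K] K :=
  ((AlgEquiv.ofBijective (Algebra.ofId K (ResidueField C)) hres).symm :
      ResidueField C →ₐ[K] K).comp (IsScalarTower.toAlgHom K C (ResidueField C))

theorem algebraMap_retr (hres : Function.Bijective (algebraMap K (ResidueField C))) (c : C) :
    algebraMap K (ResidueField C) (retr hres c) = residue C c := by
  have : algebraMap K (ResidueField C) (retr hres c) =
      (AlgEquiv.ofBijective (Algebra.ofId K (ResidueField C)) hres) (retr hres c) := rfl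
  rw [this]
  show (AlgEquiv.ofBijective (Algebra.ofId K (ResidueField C)) hres)
    ((AlgEquiv.ofBijective (Algebra.ofId K (ResidueField C)) hres).symm
      ((IsScalarTower.toAlgHom K C (ResidueField C)) c)) = _
  rw [AlgEquiv.apply_symm_apply]
  rfl

theorem sub_retr_mem (hres : Function.Bijective (algebraMap K (ResidueField C))) (c : C) :
    c - algebraMap K C (retr hres c) ∈ maximalIdeal C := by
  rw [← residue_eq_zero_iff, map_sub, ← ResidueField.algebraMap_eq,
    ← IsScalarTower.algebraMap_apply K C (ResidueField C), algebraMap_retr hres c,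
    ResidueField.algebraMap_eq, sub_self]

theorem retr_eq_zero_of_mem (hres : Function.Bijective (algebraMap K (ResidueField C))) {c : C}
    (hc : c ∈ maximalIdeal C) : retr hres c = 0 := by
  apply hres.1
  rw [algebraMap_retr, map_zero, residue_eq_zero_iff]
  exact hc

/-- The universal `K`-derivation `C → m/m²`, `c ↦ c - c(0)`. -/
noncomputable def der (hres : Function.Bijective (algebraMap K (ResidueField C))) :
    C →ₗ[K] (maximalIdeal C).Cotangent where
  toFun c := (maximalIdeal C).toCotangent ⟨c - algebraMap K C (retr hres c), sub_retr_mem hres c⟩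
  map_add' c c' := by
    rw [← map_add]
    congr 1
    ext
    simp only [map_add, Submodule.coe_add]
    ring
  map_smul' a c := by
    rw [RingHom.id_apply, ← LinearMap.map_smul_of_tower]
    congr 1
    ext
    have h : retr hres (a • c) = a * retr hres c := by rw [map_smul, smul_eq_mul]
    show a • c - algebraMap K C (retr hres (a • c)) = a • (c - algebraMap K C (retr hres c))
    rw [h, map_mul, Algebra.smul_def, Algebra.smul_def]
    ring

theorem der_apply (hres : Function.Bijective (algebraMap K (ResidueField C))) (c : C) :
    der hres c = (maximalIdeal C).toCotangent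
      ⟨c - algebraMap K C (retr hres c), sub_retr_mem hres c⟩ := rfl

theorem der_of_mem (hres : Function.Bijective (algebraMap K (ResidueField C))) {c : C}
    (hc : c ∈ maximalIdeal C) : der hres c = (maximalIdeal C).toCotangent ⟨c, hc⟩ := by
  rw [der_apply]
  congr 1
  ext
  simp [retr_eq_zero_of_mem hres hc]

theorem der_one (hres : Function.Bijective (algebraMap K (ResidueField C))) :
    der hres (1 : C) = 0 := by
  rw [der_apply]
  have : (⟨(1 : C) - algebraMap K C (retr hres 1), sub_retr_mem hres 1⟩ : maximalIdeal C) = 0 := by
    ext
    simp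
  rw [this, map_zero]

/-- Leibniz rule. -/
theorem der_mul (hres : Function.Bijective (algebraMap K (ResidueField C))) (c c' : C) :
    der hres (c * c') = retr hres c • der hres c' + retr hres c' • der hres c := by
  simp only [der_apply]
  rw [← LinearMap.map_smul_of_tower, ← LinearMap.map_smul_of_tower, ← map_add,
    Ideal.toCotangent_eq]
  have : (c * c' - algebraMap K C (retr hres (c * c')) -
      ((retr hres c • (⟨c' - algebraMap K C (retr hres c'), sub_retr_mem hres c'⟩ :
          maximalIdeal C) +
        retr hres c' • (⟨c - algebraMap K C (retr hres c), sub_retr_mem hres c⟩ :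
          maximalIdeal C) : maximalIdeal C) : C)) =
      (c - algebraMap K C (retr hres c)) * (c' - algebraMap K C (retr hres c')) := by
    simp only [Submodule.coe_add, Submodule.coe_smul_of_tower, Algebra.smul_def, map_mul]
    ring
  rw [this, pow_two]
  exact Ideal.mul_mem_mul (sub_retr_mem hres c) (sub_retr_mem hres c')

/-- **First-order jets.** A `K`-linear map `L : m/m² → B` whose values multiply into `J`
defines a `K`-algebra map `C → B/J`, `c ↦ c(0) + L(dc)`. -/
theorem exists_jet (hres : Function.Bijective (algebraMap K (ResidueField C)))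
    {B : Type*} [CommRing B] [Algebra K B] (J : Ideal B)
    (L : (maximalIdeal C).Cotangent →ₗ[K] B) (hL : ∀ u v, L u * L v ∈ J) :
    ∃ g : C →ₐ[K] B ⧸ J, ∀ c, g c =
      Ideal.Quotient.mk J (algebraMap K B (retr hres c) + L (der hres c)) := by
  let f : C →ₗ[K] B ⧸ J := (Ideal.Quotient.mkₐ K J).toLinearMap ∘ₗ
     ((Algebra.linearMap K B) ∘ₗ (retr hres).toLinearMap + L ∘ₗ der hres)
  have hf : ∀ c, f c = Ideal.Quotient.mk J (algebraMap K B (retr hres c) + L (der hres c)) :=
    fun c => rfl
  refine ⟨AlgHom.ofLinearMap f ?_ ?_, fun c => rfl⟩
  · rw [hf, der_one, map_one, map_one, map_zero, add_zero, map_one]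
  · intro c c'
    rw [hf, hf, hf, ← map_mul, Ideal.Quotient.eq, der_mul, map_mul, map_mul, map_add,
      map_smul, map_smul, Algebra.smul_def, Algebra.smul_def]
    have : algebraMap K B (retr hres c) * algebraMap K B (retr hres c') +
        (algebraMap K B (retr hres c) * L (der hres c') +
          algebraMap K B (retr hres c') * L (der hres c)) -
        (algebraMap K B (retr hres c) + L (der hres c)) *
          (algebraMap K B (retr hres c') + L (der hres c')) =
        - (L (der hres c) * L (der hres c')) := by ring
    rw [this]
    exact neg_mem (hL _ _)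

end Fermat.Agent.JAC.DIV1.Jets17
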