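/-
JAC / S26 track, chapter DIV1 (helper64), part (c): flat local descent of unique factorisation.

`C` a noetherian local domain, `D` a flat `C`-algebra which is a UFD, with `𝔪_C D ≠ D`.
Then `C` is a UFD.  (Applied with `D` = the `𝔪`-adic completion of `C`.)

Proof: by the equational criterion of flatness, a relation `φ(x) u = φ(y) v` in `D` with
`u ∉ 𝔪_C D` forces `y ∣ x` in `C`.  For `a, b ≠ 0` in `C` the lcm `ℓ` of `φ a, φ b` in `D` is
written `ℓ = Σ φ(c_l) y_l` with `c_l ∈ aC ∩ bC`; one of the `c_l` generates `aC ∩ bC`.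
So `C` has lcms, i.e. is a GCD domain, and a noetherian GCD domain is a UFD.
-/
import Mathlib

set_option autoImplicit false

namespace Fermat.Agent.JAC.DIV1.UFDDescent64

open IsLocalRing

variable {C D : Type*} [CommRing C] [IsDomain C]
  [CommRing D] [IsDomain D] [Algebra C D] [Module.Flat C D]

/-- A flat algebra over a domain which is itself a domain is a faithful algebra. -/
lemma algebraMap_injective_of_flat : Function.Injective (algebraMap C D) := by
  rw [injective_iff_map_eq_zero]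
  intro a ha
  by_contra hne
  have hreg : IsSMulRegular D a :=
    Module.Flat.isSMulRegular_of_isRegular (IsRegular.of_ne_zero hne)
  have : a • (1 : D) = a • (0 : D) := by rw [Algebra.smul_def, mul_one, ha, smul_zero]
  exact one_ne_zero (hreg this)

variable [IsLocalRing C]

omit [IsDomain C] [IsDomain D] in
/-- **Key lemma.** A relation `φ(x) u = φ(y) v` in the flat algebra `D` with `u ∉ 𝔪_C D` forces
`y ∣ x` in the local ring `C`. -/
lemma dvd_of_relation {x y : C} {u v : D}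
    (h : algebraMap C D x * u = algebraMap C D y * v)
    (hu : u ∉ (maximalIdeal C).map (algebraMap C D)) : y ∣ x := by
  have hrel : ∑ i : Fin 2, (![x, -y] : Fin 2 → C) i • (![u, v] : Fin 2 → D) i = 0 := by
    simp [Fin.sum_univ_two, Algebra.smul_def, h]
  obtain ⟨k, a, w, hz, hf⟩ := Module.Flat.isTrivialRelation_of_sum_smul_eq_zero (R := C) (M := D)
    (f := ![x, -y]) (x := ![u, v]) hrel
  have hu' : u = ∑ j, a 0 j • w j := by simpa using hz 0
  obtain ⟨j, hj⟩ : ∃ j, a 0 j ∉ maximalIdeal C := by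
    by_contra hall
    push Not at hall
    apply hu
    rw [hu']
    refine Ideal.sum_mem _ (fun j _ => ?_)
    rw [Algebra.smul_def]
    exact Ideal.mul_mem_right _ _ (Ideal.mem_map_of_mem _ (hall j))
  have hunit : IsUnit (a 0 j) := by
    by_contra hnu
    exact hj ((mem_maximalIdeal _).mpr hnu)
  have hfj : x * a 0 j + -y * a 1 j = 0 := by simpa [Fin.sum_univ_two] using hf j
  have : y ∣ x * a 0 j := ⟨a 1 j, by linear_combination hfj⟩
  exact (hunit.dvd_mul_right).mp this

variable [UniqueFactorizationMonoid D]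

/-- Existence of least common multiples in `C`. -/
lemma exists_lcm (hm : (maximalIdeal C).map (algebraMap C D) ≠ ⊤) (a b : C) :
    ∃ c : C, ∀ d : C, a ∣ d ∧ b ∣ d ↔ c ∣ d := by
  set φ := algebraMap C D with hφ
  have hinj : Function.Injective φ := algebraMap_injective_of_flat
  by_cases ha : a = 0
  · refine ⟨0, fun d => ⟨fun h => ?_, fun h => ?_⟩⟩
    · rw [ha] at h; exact h.1
    · rw [zero_dvd_iff] at h; rw [h]; exact ⟨dvd_zero _, dvd_zero _⟩
  by_cases hb : b = 0
  · refine ⟨0, fun d => ⟨fun h => ?_, fun h => ?_⟩⟩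
    · rw [hb] at h; exact h.2
    · rw [zero_dvd_iff] at h; rw [h]; exact ⟨dvd_zero _, dvd_zero _⟩
  have hφa : φ a ≠ 0 := fun h => ha (hinj (by rw [h, map_zero]))
  have hφb : φ b ≠ 0 := fun h => hb (hinj (by rw [h, map_zero]))
  obtain ⟨ℓ, hℓ⟩ := (isGCDMonoid_iff_exists_lcm.mp (inferInstance : IsGCDMonoid D)).2 (φ a) (φ b)
  have hℓ0 : ℓ ≠ 0 := by
    intro h0
    have : ℓ ∣ φ a * φ b := (hℓ _).mp ⟨dvd_mul_right _ _, dvd_mul_left _ _⟩
    rw [h0, zero_dvd_iff] at this
    exact mul_ne_zero hφa hφb this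
  obtain ⟨⟨p, hp⟩, ⟨q, hq⟩⟩ := (hℓ ℓ).mpr dvd_rfl
  -- the relation `a • p - b • q = 0`
  have hrel : ∑ i : Fin 2, (![a, -b] : Fin 2 → C) i • (![p, q] : Fin 2 → D) i = 0 := by
    simp [Fin.sum_univ_two, Algebra.smul_def, ← hφ, ← hp, ← hq]
  obtain ⟨k, α, y, hz, hf⟩ := Module.Flat.isTrivialRelation_of_sum_smul_eq_zero (R := C) (M := D)
    (f := ![a, -b]) (x := ![p, q]) hrel
  have hp' : p = ∑ j, α 0 j • y j := by simpa using hz 0
  have hαβ : ∀ j, a * α 0 j = b * α 1 j := fun j => by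
    have : a * α 0 j + -b * α 1 j = 0 := by simpa [Fin.sum_univ_two] using hf j
    linear_combination this
  -- `φ (a α_j)` is a multiple of `ℓ`
  have hdiv : ∀ j, ℓ ∣ φ (a * α 0 j) := fun j => by
    apply (hℓ _).mp
    refine ⟨⟨φ (α 0 j), by rw [map_mul]⟩, ⟨φ (α 1 j), by rw [hαβ j, map_mul]⟩⟩
  choose z hzdef using hdiv
  -- `1 = Σ z_j y_j`
  have hone : (1 : D) = ∑ j, z j * y j := by
    apply mul_left_cancel₀ hℓ0
    rw [mul_one, Finset.mul_sum]
    conv_lhs => rw [hp, hp', Finset.mul_sum]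
    refine Finset.sum_congr rfl (fun j _ => ?_)
    rw [Algebra.smul_def, ← mul_assoc, ← hφ, ← map_mul, hzdef j, mul_assoc]
  obtain ⟨j, hj⟩ : ∃ j, z j ∉ (maximalIdeal C).map φ := by
    by_contra hall
    push Not at hall
    apply hm
    rw [Ideal.eq_top_iff_one, hone]
    exact Ideal.sum_mem _ (fun j _ => Ideal.mul_mem_right _ _ (hall j))
  refine ⟨a * α 0 j, fun d => ⟨fun ⟨had, hbd⟩ => ?_, fun h => ?_⟩⟩
  · obtain ⟨w, hw⟩ : ℓ ∣ φ d := (hℓ _).mp ⟨map_dvd φ had, map_dvd φ hbd⟩
    refine dvd_of_relation (u := z j) (v := w) ?_ hj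
    rw [← hφ, hw, hzdef j]; ring
  · exact ⟨(Dvd.intro _ rfl).trans h, (Dvd.intro (α 1 j) (hαβ j).symm).trans h⟩

/-- **DIV1 (c).** Flat local descent of unique factorisation. -/
theorem ufd_of_flat [IsNoetherianRing C]
    (hm : (maximalIdeal C).map (algebraMap C D) ≠ ⊤) : UniqueFactorizationMonoid C := by
  have : IsGCDMonoid C :=
    isGCDMonoid_iff_exists_lcm.mpr ⟨inferInstance, exists_lcm (D := D) hm⟩
  infer_instance

end Fermat.Agent.JAC.DIV1.UFDDescent64
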