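/-
JAC / S26 track, chapter DIV1 (helper64): final glue.

* `ufd_of_completion_equiv`: a noetherian local ring `C` whose `𝔪`-adic completion is isomorphic to
  a power series ring `K⟦x_1,…,x_n⟧` over an infinite field is a domain and a UFD.
* `ufd_localization_atPrime_of_le`: if `p ≤ q` are primes of `B` and `B_q` is a UFD, so is `B_p`.
* `ufd_localization_atPrime_of_completion`: DIV1 for the local ring of a `K`-algebra `B` at a maximal
  ideal `q`, with part (b) (`Ĉ ≃ K⟦x⟧`, supplied by formal smoothness) as a hypothesis.
-/
import Mathlib
import Fermat.Agent.JAC.DIV1.UFDPowerSeries64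
import Fermat.Agent.JAC.DIV1.UFDDescent64

set_option autoImplicit false

namespace Fermat.Agent.JAC.DIV1.Main64

open IsLocalRing
open Fermat.Agent.JAC.DIV1.UFDPowerSeries64 Fermat.Agent.JAC.DIV1.UFDDescent64

section Completion

variable {C : Type*} [CommRing C] [IsNoetherianRing C] [IsLocalRing C]
  {K : Type*} [Field K] {n : ℕ}

/-- The canonical map to the completion of a noetherian local ring is injective. -/
lemma algebraMap_completion_injective :
    Function.Injective (algebraMap C (AdicCompletion (maximalIdeal C) C)) := by
  intro a b hab
  rw [AdicCompletion.algebraMap_apply, AdicCompletion.algebraMap_apply] at hab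
  exact AdicCompletion.of_injective (maximalIdeal C) C (by simpa using hab)

/-- If the completion of `C` is a power series ring over a field then `C` is a domain. -/
theorem isDomain_of_completion_equiv
    (e : AdicCompletion (maximalIdeal C) C ≃+* MvPowerSeries (Fin n) K) : IsDomain C := by
  have : IsDomain (AdicCompletion (maximalIdeal C) C) :=
    MulEquiv.isDomain (MvPowerSeries (Fin n) K) e.toMulEquiv
  exact Function.Injective.isDomain (algebraMap C (AdicCompletion (maximalIdeal C) C))
    algebraMap_completion_injective

/-- If the completion of the domain `C` is a power series ring over an infinite field then `C` is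
a UFD. -/
theorem ufd_of_completion_equiv' [Infinite K] [IsDomain C]
    (e : AdicCompletion (maximalIdeal C) C ≃+* MvPowerSeries (Fin n) K) :
    UniqueFactorizationMonoid C := by
  have : IsDomain (AdicCompletion (maximalIdeal C) C) :=
    MulEquiv.isDomain (MvPowerSeries (Fin n) K) e.toMulEquiv
  have : UniqueFactorizationMonoid (AdicCompletion (maximalIdeal C) C) :=
    MulEquiv.uniqueFactorizationMonoid e.symm.toMulEquiv (ufd_mvPowerSeries_fin K n)
  apply ufd_of_flat (D := AdicCompletion (maximalIdeal C) C)
  rw [← AdicCompletion.maximalIdeal_eq_map]
  exact Ideal.IsPrime.ne_top inferInstance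

/-- Combined form. -/
theorem ufd_of_completion_equiv [Infinite K]
    (e : AdicCompletion (maximalIdeal C) C ≃+* MvPowerSeries (Fin n) K) :
    IsDomain C ∧ ∀ [IsDomain C], UniqueFactorizationMonoid C :=
  ⟨isDomain_of_completion_equiv e, ufd_of_completion_equiv' e⟩

end Completion

section Localization

variable {B : Type*} [CommRing B]

/-- Unique factorisation passes from `B_q` to `B_p` for primes `p ≤ q`. -/
theorem ufd_localization_atPrime_of_le (p q : Ideal B) [p.IsPrime] [q.IsPrime] (hpq : p ≤ q)
    [UniqueFactorizationMonoid (Localization.AtPrime q)] :
    UniqueFactorizationMonoid (Localization.AtPrime p) := by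
  have hle : q.primeCompl ≤ p.primeCompl := fun x hx hxp => hx (hpq hxp)
  let : Algebra (Localization.AtPrime q) (Localization.AtPrime p) :=
    IsLocalization.localizationAlgebraOfSubmonoidLe _ _ q.primeCompl p.primeCompl hle
  have : IsScalarTower B (Localization.AtPrime q) (Localization.AtPrime p) :=
    IsLocalization.localization_isScalarTower_of_submonoid_le _ _ q.primeCompl p.primeCompl hle
  have : IsLocalization (Submonoid.map (algebraMap B (Localization.AtPrime q)) p.primeCompl)
      (Localization.AtPrime p) :=
    IsLocalization.isLocalization_of_submonoid_le _ _ q.primeCompl p.primeCompl hle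
  exact UniqueFactorizationMonoid.of_isLocalization
    (Submonoid.map (algebraMap B (Localization.AtPrime q)) p.primeCompl) (Localization.AtPrime p)

/-- DIV1 with part (b) as a hypothesis: if the completion of `B_q` is a power series ring over an
infinite field, then `B_q` is a domain and a UFD. -/
theorem ufd_localization_atPrime_of_completion [IsNoetherianRing B] (q : Ideal B) [q.IsPrime]
    {K : Type*} [Field K] [Infinite K]
    (hb : ∃ n : ℕ, Nonempty (AdicCompletion (maximalIdeal (Localization.AtPrime q))
      (Localization.AtPrime q) ≃+* MvPowerSeries (Fin n) K)) :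
    IsDomain (Localization.AtPrime q) ∧
      ∀ [IsDomain (Localization.AtPrime q)], UniqueFactorizationMonoid (Localization.AtPrime q) := by
  obtain ⟨n, ⟨e⟩⟩ := hb
  exact ufd_of_completion_equiv e

end Localization

end Fermat.Agent.JAC.DIV1.Main64
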