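/-
DIV1(b), file 1/4 (helper17).  Pure commutative algebra, Mathlib only.

Abstract truncation isomorphism: a ring map `φ : A → C` with `φ(I) ⊆ m` induces bijections
`A/I^k → C/m^k` as soon as
* `C = φ(A) + m`, `m = φ(I)C + m²`            (surjectivity, graded Nakayama), and
* there is a ring map `ψ : C → A/I^k` with `ψ(m) ⊆ I·(A/I^k)` such that `ψ ∘ φ` is unipotent
  for the `I`-adic filtration (agrees with the projection mod `I`, and mod `I²` on generators
  of `I`)                                        (injectivity).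
-/
import Mathlib.RingTheory.Ideal.Quotient.Operations
import Mathlib.RingTheory.Ideal.Operations
import Mathlib.RingTheory.Ideal.Maps
import Mathlib.RingTheory.Ideal.Quotient.PowTransition

namespace Fermat.Agent.JAC.DIV1.TruncIso17

open Ideal

variable {A C : Type*} [CommRing A] [CommRing C]

/-- Graded step: `m^k ≤ φ(I^k)C + m^(k+1)`. -/
theorem pow_le_map_pow_sup (φ : A →+* C) (I : Ideal A) (m : Ideal C)
    (h0 : I.map φ ≤ m) (h2 : m ≤ I.map φ ⊔ m ^ 2) (k : ℕ) :
    m ^ k ≤ (I ^ k).map φ ⊔ m ^ (k + 1) := by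
  induction k with
  | zero => simp [Ideal.map_top]
  | succ k ih =>
    have hk : (I ^ k).map φ ≤ m ^ k := by
      rw [Ideal.map_pow]; exact Ideal.pow_right_mono h0 k
    calc m ^ (k + 1) = m ^ k * m := pow_succ m k
      _ ≤ ((I ^ k).map φ ⊔ m ^ (k + 1)) * (I.map φ ⊔ m ^ 2) := Ideal.mul_mono ih h2
      _ ≤ (I ^ (k + 1)).map φ ⊔ m ^ (k + 1 + 1) := by
        rw [Ideal.sup_mul, Ideal.mul_sup, Ideal.mul_sup]
        refine sup_le (sup_le ?_ ?_) (sup_le ?_ ?_)
        · refine le_sup_of_le_left ?_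
          rw [pow_succ, Ideal.map_mul]
        · refine le_sup_of_le_right ?_
          calc (I ^ k).map φ * m ^ 2 ≤ m ^ k * m ^ 2 := Ideal.mul_mono_left hk
            _ = m ^ (k + 2) := (pow_add m k 2).symm
        · refine le_sup_of_le_right ?_
          calc m ^ (k + 1) * I.map φ ≤ m ^ (k + 1) * m := Ideal.mul_mono_right h0
            _ = m ^ (k + 1 + 1) := (pow_succ m (k + 1)).symm
        · refine le_sup_of_le_right ?_
          calc m ^ (k + 1) * m ^ 2 = m ^ (k + 1 + 2) := (pow_add m (k + 1) 2).symm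
            _ ≤ m ^ (k + 1 + 1) := Ideal.pow_le_pow_right (by omega)

/-- Elements of `φ(I^k)C` are congruent mod `m^(k+1)` to elements of `φ(I^k)`, as soon as
`C = φ(A) + m`. -/
theorem exists_sub_mem_of_mem_map_pow (φ : A →+* C) (I : Ideal A) (m : Ideal C)
    (h0 : I.map φ ≤ m) (h1 : ∀ c, ∃ a, c - φ a ∈ m) (k : ℕ) (u : C)
    (hu : u ∈ (I ^ k).map φ) : ∃ a ∈ I ^ k, u - φ a ∈ m ^ (k + 1) := by
  have hk : (I ^ k).map φ ≤ m ^ k := by
    rw [Ideal.map_pow]; exact Ideal.pow_right_mono h0 k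
  unfold Ideal.map at hu
  induction hu using Submodule.span_induction with
  | mem x hx =>
    obtain ⟨a, ha, rfl⟩ := hx
    exact ⟨a, ha, by simp⟩
  | zero => exact ⟨0, zero_mem _, by simp⟩
  | add x y _ _ hx hy =>
    obtain ⟨a, ha, ha'⟩ := hx
    obtain ⟨b, hb, hb'⟩ := hy
    refine ⟨a + b, add_mem ha hb, ?_⟩
    have : x + y - φ (a + b) = (x - φ a) + (y - φ b) := by rw [map_add]; ring
    rw [this]; exact add_mem ha' hb'
  | smul c x _ hx =>
    obtain ⟨a, ha, ha'⟩ := hx
    obtain ⟨b, hb⟩ := h1 c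
    refine ⟨b * a, Ideal.mul_mem_left _ _ ha, ?_⟩
    have : c • x - φ (b * a) = c * (x - φ a) + (c - φ b) * φ a := by
      rw [map_mul, smul_eq_mul]; ring
    rw [this]
    refine add_mem (Ideal.mul_mem_left _ _ ha') ?_
    rw [pow_succ']
    exact Ideal.mul_mem_mul hb (hk (Ideal.mem_map_of_mem φ ha))

/-- **Surjectivity on truncations.** If `C = φ(A) + m` and `m = φ(I)C + m²` then
`C = φ(A) + m^k` for all `k`. -/
theorem exists_sub_mem_pow (φ : A →+* C) (I : Ideal A) (m : Ideal C)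
    (h0 : I.map φ ≤ m) (h1 : ∀ c, ∃ a, c - φ a ∈ m) (h2 : m ≤ I.map φ ⊔ m ^ 2) :
    ∀ (k : ℕ) (c : C), ∃ a, c - φ a ∈ m ^ k := by
  intro k
  induction k with
  | zero => intro c; exact ⟨0, by simp⟩
  | succ k ih =>
    intro c
    obtain ⟨a, ha⟩ := ih c
    have := pow_le_map_pow_sup φ I m h0 h2 k ha
    obtain ⟨u, hu, v, hv, huv⟩ := Submodule.mem_sup.mp this
    obtain ⟨b, -, hb'⟩ := exists_sub_mem_of_mem_map_pow φ I m h0 h1 k u hu
    refine ⟨a + b, ?_⟩
    have : c - φ (a + b) = (u - φ b) + v := by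
      rw [map_add, sub_add_eq_sub_sub, ← huv]; ring
    rw [this]; exact add_mem hb' hv

/-- **Unipotence.** Two ring maps `π θ : A → B` that agree modulo `I_B = π(I)B`, and agree
modulo `I_B²` on generators of `I`, agree modulo `I_B^(j+1)` on `I^j`. -/
theorem sub_mem_pow_succ {B : Type*} [CommRing B] (π θ : A →+* B) (I : Ideal A) (S : Set A)
    (hS : I = Ideal.span S) (h0 : ∀ a, θ a - π a ∈ I.map π)
    (h1 : ∀ a ∈ S, θ a - π a ∈ (I.map π) ^ 2) :
    ∀ (j : ℕ), ∀ a ∈ I ^ j, θ a - π a ∈ (I.map π) ^ (j + 1) := by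
  have hπ : ∀ (j : ℕ), ∀ a ∈ I ^ j, π a ∈ (I.map π) ^ j := by
    intro j a ha
    rw [← Ideal.map_pow]; exact Ideal.mem_map_of_mem π ha
  have key1 : ∀ a ∈ I, θ a - π a ∈ (I.map π) ^ 2 := by
    intro a ha
    rw [hS] at ha
    induction ha using Submodule.span_induction with
    | mem x hx => exact h1 x hx
    | zero => simp
    | add x y _ _ hx hy =>
      have : θ (x + y) - π (x + y) = (θ x - π x) + (θ y - π y) := by
        rw [map_add, map_add]; ring
      rw [this]; exact add_mem hx hy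
    | smul r x hxS hx =>
      have : θ (r • x) - π (r • x) = θ r * (θ x - π x) + (θ r - π r) * π x := by
        rw [smul_eq_mul, map_mul, map_mul]; ring
      rw [this]
      refine add_mem (Ideal.mul_mem_left _ _ hx) ?_
      rw [pow_two]
      refine Ideal.mul_mem_mul (h0 r) ?_
      exact Ideal.mem_map_of_mem π (hS ▸ hxS)
  intro j
  induction j with
  | zero => intro a _; simpa using h0 a
  | succ j ih =>
    intro a ha
    rw [pow_succ] at ha
    refine Submodule.mul_induction_on ha ?_ ?_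
    · intro x hx y hy
      have e : θ (x * y) - π (x * y) = θ x * (θ y - π y) + (θ x - π x) * π y := by
        rw [map_mul, map_mul]; ring
      rw [e]
      have hθx : θ x ∈ (I.map π) ^ j := by
        have : θ x = π x + (θ x - π x) := by ring
        rw [this]
        exact add_mem (hπ j x hx) (Ideal.pow_le_pow_right (Nat.le_succ j) (ih x hx))
      refine add_mem ?_ ?_
      · have : (I.map π) ^ (j + 1 + 1) = (I.map π) ^ j * (I.map π) ^ 2 := by
          rw [← pow_add]
        rw [this]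
        exact Ideal.mul_mem_mul hθx (key1 y hy)
      · rw [pow_succ _ (j + 1)]
        exact Ideal.mul_mem_mul (ih x hx) (Ideal.mem_map_of_mem π hy)
    · intro x y hx hy
      have : θ (x + y) - π (x + y) = (θ x - π x) + (θ y - π y) := by
        rw [map_add, map_add]; ring
      rw [this]; exact add_mem hx hy

/-- If `θ : A → A/I^k` is unipotent with respect to the `I`-adic filtration then its kernel
is contained in `I^k`. -/
theorem mem_pow_of_map_eq_zero (I : Ideal A) (k : ℕ) (θ : A →+* A ⧸ I ^ k) (S : Set A)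
    (hS : I = Ideal.span S)
    (h0 : ∀ a, θ a - Ideal.Quotient.mk (I ^ k) a ∈ I.map (Ideal.Quotient.mk (I ^ k)))
    (h1 : ∀ a ∈ S, θ a - Ideal.Quotient.mk (I ^ k) a ∈ (I.map (Ideal.Quotient.mk (I ^ k))) ^ 2)
    (a : A) (ha : θ a = 0) : a ∈ I ^ k := by
  have key := sub_mem_pow_succ (Ideal.Quotient.mk (I ^ k)) θ I S hS h0 h1
  have : ∀ j, j ≤ k → a ∈ I ^ j := by
    intro j
    induction j with
    | zero => intro _; simp
    | succ j ih =>
      intro hj
      have h := key j a (ih (Nat.le_of_succ_le hj))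
      rw [ha, zero_sub, neg_mem_iff, ← Ideal.map_pow] at h
      have h' : a ∈ ((I ^ (j + 1)).map (Ideal.Quotient.mk (I ^ k))).comap
          (Ideal.Quotient.mk (I ^ k)) := h
      rw [Ideal.comap_map_of_surjective _ Ideal.Quotient.mk_surjective] at h'
      have hle : (⊥ : Ideal (A ⧸ I ^ k)).comap (Ideal.Quotient.mk (I ^ k)) ≤ I ^ (j + 1) := by
        rw [← RingHom.ker_eq_comap_bot, Ideal.mk_ker]
        exact Ideal.pow_le_pow_right hj
      exact (sup_le le_rfl hle) h'
  exact this k le_rfl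

/-- **Truncation isomorphism, abstract form.**  -/
theorem quotientMap_pow_bijective (φ : A →+* C) (I : Ideal A) (m : Ideal C) (S : Set A)
    (hS : I = Ideal.span S)
    (h0 : I.map φ ≤ m) (h1 : ∀ c, ∃ a, c - φ a ∈ m) (h2 : m ≤ I.map φ ⊔ m ^ 2)
    (k : ℕ) (hle : I ^ k ≤ (m ^ k).comap φ)
    (ψ : C →+* A ⧸ I ^ k) (hψ : m.map ψ ≤ I.map (Ideal.Quotient.mk (I ^ k)))
    (hθ0 : ∀ a, ψ (φ a) - Ideal.Quotient.mk (I ^ k) a ∈ I.map (Ideal.Quotient.mk (I ^ k)))
    (hθ1 : ∀ a ∈ S, ψ (φ a) - Ideal.Quotient.mk (I ^ k) a ∈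
      (I.map (Ideal.Quotient.mk (I ^ k))) ^ 2) :
    Function.Bijective (Ideal.quotientMap (m ^ k) φ hle) := by
  constructor
  · refine Ideal.quotientMap_injective' ?_
    intro a ha
    rw [Ideal.mem_comap] at ha
    refine mem_pow_of_map_eq_zero I k (ψ.comp φ) S hS hθ0 hθ1 a ?_
    have h3 : ψ (φ a) ∈ (m ^ k).map ψ := Ideal.mem_map_of_mem ψ ha
    rw [Ideal.map_pow] at h3
    have h4 := Ideal.pow_right_mono hψ k h3
    rw [← Ideal.map_pow, Ideal.map_quotient_self] at h4
    simpa using h4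
  · intro c
    obtain ⟨c, rfl⟩ := Ideal.Quotient.mk_surjective c
    obtain ⟨a, ha⟩ := exists_sub_mem_pow φ I m h0 h1 h2 k c
    refine ⟨Ideal.Quotient.mk _ a, ?_⟩
    rw [Ideal.quotientMap_mk]
    exact (Ideal.Quotient.eq.mpr ha).symm

end Fermat.Agent.JAC.DIV1.TruncIso17
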