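/-
DIV1(b), file 4/4 (helper17).  Mathlib only.

Main results:
* `exists_completion_equiv_of_isLocalRing`: a noetherian local `K`-algebra `R`, formally smooth
  over the field `K`, with residue field `K`, has `m`-adic completion isomorphic to a power
  series ring `K⟦X_1,…,X_n⟧` (`n = dim_K m/m²`).
* `exists_adicCompletion_equiv_mvPowerSeries`: the same for `R = B_q`, `B` noetherian formally
  smooth over `K`, `q` a `K`-rational maximal ideal.

Route (no étale coordinates): truncated polynomial rings `K[X]/(X)^k → R/m^k` are surjective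
(graded Nakayama) and injective (lift the first-order jet `R → K[X]/(X)²` to
`ψ : R → K[X]/(X)^k` by formal smoothness; `ψ ∘ φ` is unipotent, hence injective); pass to the
limit and use Mathlib's `MvPowerSeries.toAdicCompletionAlgEquiv`.
-/
import Fermat.Agent.JAC.DIV1.TruncIso17
import Fermat.Agent.JAC.DIV1.CompletionCongr17
import Fermat.Agent.JAC.DIV1.Jets17
import Mathlib.RingTheory.MvPowerSeries.Equiv
import Mathlib.RingTheory.Localization.Submodule
import Mathlib.RingTheory.Localization.AtPrime.Basic
import Mathlib.LinearAlgebra.FiniteDimensional.Defs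
import Mathlib.LinearAlgebra.Basis.VectorSpace
import Mathlib.LinearAlgebra.Dimension.Free

namespace Fermat.Agent.JAC.DIV1.SmoothCompletion17

open IsLocalRing MvPolynomial
open Fermat.Agent.JAC.DIV1.Jets17 Fermat.Agent.JAC.DIV1.TruncIso17
open Fermat.Agent.JAC.DIV1.CompletionCongr17

variable {K R : Type*} [Field K] [CommRing R] [Algebra K R] [IsLocalRing R]

theorem smul_cotangent_eq (hres : Function.Bijective (algebraMap K (ResidueField R))) (c : R)
    (v : (maximalIdeal R).Cotangent) : c • v = retr hres c • v := by
  have h0 : (c - algebraMap K R (retr hres c)) • v = 0 :=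
    Ideal.Cotangent.smul_eq_zero_of_mem (sub_retr_mem hres c) v
  rw [sub_smul, sub_eq_zero, algebraMap_smul] at h0
  exact h0

theorem finite_cotangent (hres : Function.Bijective (algebraMap K (ResidueField R)))
    [IsNoetherianRing R] : Module.Finite K (maximalIdeal R).Cotangent := by
  have hfg : (maximalIdeal R).FG := IsNoetherian.noetherian _
  have : Module.Finite R (maximalIdeal R) := Module.Finite.iff_fg.mpr hfg
  have hfin : Module.Finite R (maximalIdeal R).Cotangent :=
    Module.Finite.of_surjective _ (Ideal.toCotangent_surjective _)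
  obtain ⟨S, hS⟩ := hfin.fg_top
  refine ⟨⟨S, ?_⟩⟩
  rw [eq_top_iff]
  rintro v -
  have hv : v ∈ Submodule.span R (S : Set (maximalIdeal R).Cotangent) := by rw [hS]; trivial
  induction hv using Submodule.span_induction with
  | mem x hx => exact Submodule.subset_span hx
  | zero => exact zero_mem _
  | add x y _ _ hx hy => exact add_mem hx hy
  | smul c x _ hx => rw [smul_cotangent_eq hres]; exact Submodule.smul_mem _ _ hx

/-- **Completion of a formally smooth local ring with residue field `K`** is a power series
ring over `K`. -/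
theorem exists_completion_equiv_of_isLocalRing [IsNoetherianRing R] [Algebra.FormallySmooth K R]
    (hres : Function.Bijective (algebraMap K (ResidueField R))) :
    ∃ n : ℕ, Nonempty (AdicCompletion (maximalIdeal R) R ≃+* MvPowerSeries (Fin n) K) := by
  classical
  have := finite_cotangent (K := K) (R := R) hres
  set m := maximalIdeal R with hm
  let n := Module.finrank K m.Cotangent
  let b : Module.Basis (Fin n) K m.Cotangent := Module.finBasis K m.Cotangent
  choose x hx using fun i => m.toCotangent_surjective (b i)
  let A := MvPolynomial (Fin n) K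
  let I : Ideal A := MvPolynomial.idealOfVars (Fin n) K
  let φ : A →ₐ[K] R := MvPolynomial.aeval (fun i => (x i : R))
  have hφX : ∀ i, φ (X i) = x i := fun i => aeval_X _ i
  have h0 : I.map (φ : A →+* R) ≤ m := by
    rw [Ideal.map_span, Ideal.span_le]
    rintro _ ⟨_, ⟨i, rfl⟩, rfl⟩
    rw [RingHom.coe_coe, hφX]
    exact (x i).2
  have h1 : ∀ c, ∃ a, c - (φ : A →+* R) a ∈ m := fun c => ⟨MvPolynomial.C (retr hres c), by
    rw [RingHom.coe_coe, MvPolynomial.aeval_C]
    exact sub_retr_mem hres c⟩
  have h2 : m ≤ I.map (φ : A →+* R) ⊔ m ^ 2 := by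
    intro y hy
    let v := m.toCotangent ⟨y, hy⟩
    let p : A := ∑ i, MvPolynomial.C (b.repr v i) * X i
    have hp : p ∈ I := sum_mem fun i _ => Ideal.mul_mem_left _ _ (Ideal.subset_span ⟨i, rfl⟩)
    have hφp : φ p = ∑ i, algebraMap K R (b.repr v i) * (x i : R) := by
      simp only [p, map_sum, map_mul, hφX]
      refine Finset.sum_congr rfl fun i _ => ?_
      rw [show φ (MvPolynomial.C (b.repr v i)) = algebraMap K R (b.repr v i) from MvPolynomial.aeval_C _ _]
    have hφpm : φ p ∈ m := h0 (Ideal.mem_map_of_mem _ hp)
    have hcot : m.toCotangent ⟨φ p, hφpm⟩ = v := by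
      have : (⟨φ p, hφpm⟩ : m) = ∑ i, (b.repr v i) • x i := by
        ext
        rw [Submodule.coe_sum]
        show φ p = _
        rw [hφp]
        refine Finset.sum_congr rfl fun i _ => ?_
        rw [Submodule.coe_smul_of_tower, Algebra.smul_def]
      rw [this, map_sum]
      simp_rw [LinearMap.map_smul_of_tower, hx]
      exact b.sum_repr v
    have hdiff : y - φ p ∈ m ^ 2 :=
      (Ideal.toCotangent_eq m (x := ⟨y, hy⟩) (y := ⟨φ p, hφpm⟩)).mp hcot.symm
    have : y = φ p + (y - φ p) := by ring
    rw [this]
    exact Submodule.add_mem_sup (Ideal.mem_map_of_mem _ hp) hdiff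
  have hk : ∀ k, I ^ k ≤ (m ^ k).comap (φ : A →+* R) := by
    intro k
    rw [← Ideal.map_le_iff_le_comap, Ideal.map_pow]
    exact Ideal.pow_right_mono h0 k
  have hbij : ∀ k, Function.Bijective (Ideal.quotientMap (m ^ k) (φ : A →+* R) (hk k)) := by
    intro k
    let B := A ⧸ I ^ k
    let π : A →+* B := Ideal.Quotient.mk (I ^ k)
    let IB : Ideal B := I.map π
    let J : Ideal B := IB ^ 2
    have hJ : IsNilpotent J := by
      refine ⟨k, ?_⟩
      show J ^ k = ⊥
      rw [← pow_mul, ← Ideal.map_pow, eq_bot_iff]
      calc (I ^ (2 * k)).map π ≤ (I ^ k).map π :=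
            Ideal.map_mono (Ideal.pow_le_pow_right (by omega))
        _ = ⊥ := Ideal.map_quotient_self _
    let y : Fin n → B := fun i => π (X i)
    have hy : ∀ i, y i ∈ IB := fun i => Ideal.mem_map_of_mem π (Ideal.subset_span ⟨i, rfl⟩)
    let L : m.Cotangent →ₗ[K] B := b.constr K y
    have hLb : ∀ i, L (b i) = y i := fun i => b.constr_basis K y i
    have hLmem : ∀ u, L u ∈ IB := by
      intro u
      rw [show L u = ∑ i, b.equivFun u i • y i from b.constr_apply_fintype K y u]
      refine sum_mem fun i _ => ?_
      exact Submodule.smul_of_tower_mem IB _ (hy i)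
    have hL : ∀ u v, L u * L v ∈ J := fun u v => by
      rw [show J = IB ^ 2 from rfl, pow_two]; exact Ideal.mul_mem_mul (hLmem u) (hLmem v)
    obtain ⟨g, hg⟩ := exists_jet hres J L hL
    obtain ⟨ψ, hψ⟩ := Algebra.FormallySmooth.exists_lift J hJ g
    have hψm : ∀ z (hz : z ∈ m), ψ z - L (m.toCotangent ⟨z, hz⟩) ∈ J := by
      intro z hz
      rw [← Ideal.Quotient.eq]
      have := AlgHom.congr_fun hψ z
      rw [AlgHom.comp_apply, Ideal.Quotient.mkₐ_eq_mk] at this
      rw [this, hg, retr_eq_zero_of_mem hres hz, map_zero, zero_add, der_of_mem hres hz]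
    have hJle : J ≤ IB := Ideal.pow_le_self two_ne_zero
    have hψIB : m.map (ψ : R →+* B) ≤ IB := by
      rw [Ideal.map_le_iff_le_comap]
      intro z hz
      rw [Ideal.mem_comap]
      have e : (ψ : R →+* B) z =
          (ψ z - L (m.toCotangent ⟨z, hz⟩)) + L (m.toCotangent ⟨z, hz⟩) := by
        simp
      rw [e]
      exact add_mem (hJle (hψm z hz)) (hLmem _)
    have hψx : ∀ i, ψ (x i) - y i ∈ J := by
      intro i
      have := hψm (x i) (x i).2
      rwa [show (⟨(x i : R), (x i).2⟩ : m) = x i from rfl, hx, hLb] at this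
    refine quotientMap_pow_bijective (φ : A →+* R) I m (Set.range X) rfl h0 h1 h2 k (hk k)
      (ψ : R →+* B) hψIB ?_ ?_
    · intro a
      refine MvPolynomial.induction_on
        (motive := fun a => (ψ : R →+* B) ((φ : A →+* R) a) - π a ∈ IB) a ?_ ?_ ?_
      · intro r
        have : (ψ : R →+* B) ((φ : A →+* R) (MvPolynomial.C r)) = π (MvPolynomial.C r) := by
          show ψ (φ (MvPolynomial.C r)) = π (MvPolynomial.C r)
          rw [show φ (MvPolynomial.C r) = algebraMap K R r from MvPolynomial.aeval_C _ _,
            AlgHom.commutes]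
          rfl
        rw [this, sub_self]; exact zero_mem _
      · intro p q hp hq
        rw [map_add, map_add, map_add, add_sub_add_comm]; exact add_mem hp hq
      · intro p i _
        rw [map_mul, map_mul, map_mul]
        refine sub_mem (Ideal.mul_mem_left _ _ ?_) (Ideal.mul_mem_left _ _ (hy i))
        apply hψIB
        apply Ideal.mem_map_of_mem
        rw [RingHom.coe_coe, hφX]; exact (x i).2
    · rintro _ ⟨i, rfl⟩
      rw [RingHom.coe_coe, RingHom.coe_coe, hφX]
      exact hψx i
  let e1 : AdicCompletion I A ≃+* AdicCompletion m R :=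
    completionEquiv (φ : A →+* R) I m hk hbij
  let e2 : MvPowerSeries (Fin n) K ≃+* AdicCompletion I A :=
    (MvPowerSeries.toAdicCompletionAlgEquiv (Fin n) K).toRingEquiv
  exact ⟨n, ⟨(e2.trans e1).symm⟩⟩

/-- **DIV1(b).** The completed local ring of a noetherian formally smooth `K`-algebra at a
`K`-rational maximal ideal is a power series ring over `K`. -/
theorem exists_adicCompletion_equiv_mvPowerSeries {K B : Type*} [Field K] [CommRing B]
    [Algebra K B] [Algebra.FormallySmooth K B] [IsNoetherianRing B] (q : Ideal B) [q.IsMaximal]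
    (hres : Function.Bijective (algebraMap K (B ⧸ q))) :
    ∃ n : ℕ, Nonempty (AdicCompletion (maximalIdeal (Localization.AtPrime q))
      (Localization.AtPrime q) ≃+* MvPowerSeries (Fin n) K) := by
  apply exists_completion_equiv_of_isLocalRing (K := K) (R := Localization.AtPrime q)
  have : (algebraMap K (ResidueField (Localization.AtPrime q)) : K → _) =
      (IsLocalization.AtPrime.equivQuotMaximalIdeal q (Localization.AtPrime q)) ∘
        (algebraMap K (B ⧸ q)) := by
    funext a
    rfl
  rw [this]
  exact (RingEquiv.bijective _).comp hres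

end Fermat.Agent.JAC.DIV1.SmoothCompletion17
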